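/-
An auxiliary prime `r ≡ 2 (mod 3)` with `a_r ≢ 0 (mod 3)` for a semistable curve with irreducible
`E[3]`.
-/
import Fermat.Agent.RT.ImageThreeCurve
import Fermat.Agent.LevelLowering.GlobalPlane
import Fermat.Agent.Density.Frobenius
import Fermat.Agent.Carayol.MatchCompare

set_option autoImplicit false

noncomputable section

namespace FLTA.RT.LowerQ

open WeierstrassCurve
open FLTA.LevelLowering (planeRep)
open scoped TensorProduct WeierstrassCurve.Affine

local notation "Γℚ" => AlgebraicClosure ℚ ≃ₐ[ℚ] AlgebraicClosure ℚ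

theorem end_mul_self_two {F V : Type*} [Field F] [AddCommGroup V] [Module F V]
    (hfr : Module.finrank F V = 2) (f : Module.End F V) :
    f * f = LinearMap.trace F V f • f - LinearMap.det f • 1 := by
  haveI : FiniteDimensional F V := Module.finite_of_finrank_eq_succ hfr
  let b := Module.finBasisOfFinrankEq F V hfr
  apply (LinearMap.toMatrixAlgEquiv b).injective
  rw [map_mul, map_sub, map_smul, map_smul, map_one, LinearMap.trace_eq_matrix_trace F b,
    ← LinearMap.det_toMatrix b]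
  exact Carayol.mul_self_two (LinearMap.toMatrixAlgEquiv b f)

/-- If `ρ` is absolutely irreducible on the kernel of the determinant, some element of determinant
`-1` has nonzero trace. -/
theorem exists_det_neg_one_trace_ne {Γ F V : Type*} [Group Γ] [Field F] [AddCommGroup V]
    [Module F V] (K : Type*) [Field K] [IsAlgClosed K] [Algebra F K]
    (hfr : Module.finrank F V = 2) (ρ : Γ →* Module.End F V) {c : Γ}
    (hc : LinearMap.det (ρ c) = -1)
    (hirr : ∀ U : Submodule K (K ⊗[F] V),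
      (∀ σ : Γ, LinearMap.det (ρ σ) = 1 → ∀ x ∈ U, (ρ σ).baseChange K x ∈ U) → U = ⊥ ∨ U = ⊤) :
    ∃ σ : Γ, LinearMap.det (ρ σ) = -1 ∧ LinearMap.trace F V (ρ σ) ≠ 0 := by
  classical
  by_contra hcon
  push Not at hcon
  haveI : FiniteDimensional F V := Module.finite_of_finrank_eq_succ hfr
  have hsq : ∀ σ, LinearMap.det (ρ σ) = -1 → ρ σ * ρ σ = 1 := fun σ hσ => by
    rw [end_mul_self_two hfr, hcon σ hσ, hσ, zero_smul, neg_smul, one_smul, zero_sub, neg_neg]
  have hinv : ∀ h : Γ, LinearMap.det (ρ h) = 1 → ρ c * ρ h * ρ c = ρ h⁻¹ := by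
    intro h hh
    have h1 := hsq (c * h) (by rw [map_mul, map_mul, hh, mul_one, hc])
    rw [map_mul] at h1
    calc ρ c * ρ h * ρ c = ρ c * ρ h * ρ c * (ρ h * ρ h⁻¹) := by
          rw [← map_mul ρ h, mul_inv_cancel, map_one, mul_one]
      _ = ρ c * ρ h * (ρ c * ρ h) * ρ h⁻¹ := by simp only [mul_assoc]
      _ = ρ h⁻¹ := by rw [h1, one_mul]
  have hdinv : ∀ h : Γ, LinearMap.det (ρ h) = 1 → LinearMap.det (ρ h⁻¹) = 1 := fun h hh => by
    have e : LinearMap.det (ρ h) * LinearMap.det (ρ h⁻¹) = 1 := by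
      rw [← map_mul, ← map_mul, mul_inv_cancel, map_one, map_one]
    rwa [hh, one_mul] at e
  have hcomm : ∀ h h' : Γ, LinearMap.det (ρ h) = 1 → LinearMap.det (ρ h') = 1 →
      ρ h * ρ h' = ρ h' * ρ h := by
    intro h h' hh hh'
    have e : ρ c * (ρ h⁻¹ * ρ h'⁻¹) * ρ c = (ρ c * ρ h⁻¹ * ρ c) * (ρ c * ρ h'⁻¹ * ρ c) := by
      calc ρ c * (ρ h⁻¹ * ρ h'⁻¹) * ρ c
          = ρ c * ρ h⁻¹ * (ρ c * ρ c) * ρ h'⁻¹ * ρ c := by
            rw [hsq c hc]; simp only [mul_one, mul_assoc]
        _ = (ρ c * ρ h⁻¹ * ρ c) * (ρ c * ρ h'⁻¹ * ρ c) := by simp only [mul_assoc]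
    have hd2 : LinearMap.det (ρ (h⁻¹ * h'⁻¹)) = 1 := by
      rw [map_mul, map_mul, hdinv h hh, hdinv h' hh', one_mul]
    rw [hinv _ (hdinv h hh), hinv _ (hdinv h' hh'), inv_inv, inv_inv, ← map_mul ρ h⁻¹ h'⁻¹,
      hinv _ hd2] at e
    rw [← e, mul_inv_rev, inv_inv, inv_inv, map_mul]
  have hfrK : Module.finrank K (K ⊗[F] V) = 2 := by rw [Module.finrank_baseChange, hfr]
  haveI : Nontrivial (K ⊗[F] V) := Module.nontrivial_of_finrank_eq_succ hfrK
  by_cases hs : ∀ h : Γ, LinearMap.det (ρ h) = 1 →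
      ∃ μ : K, ∀ x, (ρ h).baseChange K x = μ • x
  · obtain ⟨x, hx⟩ := exists_ne (0 : K ⊗[F] V)
    rcases hirr (K ∙ x) fun h hh y hy => by
        obtain ⟨μ, hμ⟩ := hs h hh
        rw [hμ]
        exact Submodule.smul_mem _ μ hy with h | h
    · exact hx ((Submodule.span_singleton_eq_bot).mp h)
    · have := finrank_span_singleton (K := K) hx
      rw [h, finrank_top, hfrK] at this
      omega
  · push Not at hs
    obtain ⟨h₀, hh₀, hns⟩ := hs
    obtain ⟨μ, hμ⟩ := Module.End.exists_eigenvalue ((ρ h₀).baseChange K)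
    rcases hirr (Module.End.eigenspace ((ρ h₀).baseChange K) μ) fun h hh y hy => by
        rw [Module.End.mem_eigenspace_iff] at hy ⊢
        have e := congrArg (fun f : Module.End F V => f.baseChange K y) (hcomm h₀ h hh₀ hh)
        simp only [LinearMap.baseChange_mul, Module.End.mul_apply] at e
        rw [e, hy, map_smul] with h | h
    · exact hμ h
    · obtain ⟨x, hx⟩ := hns μ
      exact hx (Module.End.mem_eigenspace_iff.mp (h ▸ Submodule.mem_top))

theorem zmod3_cases : ∀ x : ZMod 3, x = 0 ∨ x = 1 ∨ x = -1 := by decide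

theorem zmod3_one_ne : (1 : ZMod 3) ≠ -1 := by decide

theorem zmod3_zero_ne : (0 : ZMod 3) ≠ -1 := by decide

/-- Some prime `r ≡ 2 (mod 3)` outside `S` has `a_r ≢ 0 (mod 3)`. -/
theorem exists_aux_prime (W : WeierstrassCurve ℤ) (hΔ : W.Δ ≠ 0) (hss : W.IsSemistableModel)
    (hirr : W.ModRepIsIrreducible 3) (S : Finset ℕ) :
    ∃ r : ℕ, r.Prime ∧ r ∉ S ∧ r ≠ 2 ∧ r % 3 = 2 ∧ W.IsGoodPrimeFor r ∧
      ¬ (3 : ℤ) ∣ W.apOfModel r := by
  classical
  haveI : Fact (Nat.Prime 3) := ⟨Nat.prime_three⟩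
  set R := planeRep hΔ (p := 3) with hR
  let k := AlgebraicClosure (ZMod 3)
  obtain ⟨-, hTW⟩ := residual_absIrr_and_indexTwo_three W hΔ
    (EllTorsion.natCard_torsionBy_intModel W hΔ (by norm_num))
    (EllTorsion.galoisFactorsThroughFiniteLevel_intModel W hΔ (by norm_num)) hss hirr
    (k := ZMod 3) (RingHom.id _)
  have hdc : LinearMap.det (R.ρ complexConjugation) = -1 :=
    LevelLowering.planeRep_det_conjugation hΔ
  let d : Γℚ →* ZMod 3 := LinearMap.det.comp R.ρ
  let G : Subgroup Γℚ := d.ker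
  have hG : G.index = 2 := by
    have hunit : ∀ x : ZMod 3, x ≠ 0 → x = 1 ∨ x = -1 := fun x hx => (zmod3_cases x).resolve_left hx
    have hne : ∀ g, d g ≠ 0 := fun g h => by
      have e : d g * d g⁻¹ = 1 := by rw [← map_mul, mul_inv_cancel, map_one]
      rw [h, zero_mul] at e
      exact zero_ne_one e
    rw [Subgroup.index_eq_two_iff]
    refine ⟨complexConjugation, fun b => ?_⟩
    have hb : d (b * complexConjugation) = - d b := by
      rw [map_mul, show d complexConjugation = -1 from hdc, mul_neg, mul_one]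
    rcases hunit _ (hne b) with h | h
    · exact Or.inr ⟨MonoidHom.mem_ker.mpr h, fun h' => by
        rw [MonoidHom.mem_ker, hb, h] at h'; exact zmod3_one_ne h'.symm⟩
    · exact Or.inl ⟨MonoidHom.mem_ker.mpr (by rw [hb, h, neg_neg]), fun h' => by
        rw [MonoidHom.mem_ker, h] at h'; exact zmod3_one_ne h'.symm⟩
  obtain ⟨σ, hσd, hσt⟩ := exists_det_neg_one_trace_ne k R.finrank_eq R.ρ hdc fun U hU => by
    let e := TensorProduct.AlgebraTensorModule.cancelBaseChange (ZMod 3) (ZMod 3) k k R.V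
    refine (hTW k G hG (U.comap e.toLinearMap) fun g hg x hx => ?_).imp (fun h => ?_) (fun h => ?_)
    · show e _ ∈ U
      have hx' : e x ∈ U := hx
      have heq : ∀ z, e (((R.ρ g).baseChange (ZMod 3)).baseChange k z) =
          (R.ρ g).baseChange k (e z) := by
        intro z
        induction z using TensorProduct.induction_on with
        | zero => simp
        | tmul a y =>
          induction y using TensorProduct.induction_on with
          | zero => simp
          | tmul b v => rfl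
          | add y z hy hz => simp only [TensorProduct.tmul_add, map_add, hy, hz]
        | add y z hy hz => simp only [map_add, hy, hz]
      exact (Eq.symm (heq x)) ▸ hU g hg _ hx'
    · rw [eq_bot_iff]
      intro x hx
      obtain ⟨z, rfl⟩ := e.surjective x
      have := (SetLike.ext_iff.mp h z).mp hx
      have h0 : z = 0 := this
      subst h0
      exact (Submodule.mem_bot k).mpr (map_zero e)
    · rw [eq_top_iff]
      intro x _
      obtain ⟨z, rfl⟩ := e.surjective x
      exact (SetLike.ext_iff.mp h z).mpr trivial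
  obtain ⟨r, hr, hrS, A, hA, τ, hτ, j, hj⟩ := Density.exists_frobenius_pow_map_eq R.ρ
    R.factorsThroughFiniteLevel (S ∪ {2, 3} ∪ W.Δ.natAbs.primeFactors) σ
  simp only [Finset.mem_union, Finset.mem_insert, Finset.mem_singleton, Nat.mem_primeFactors,
    not_or] at hrS
  obtain ⟨⟨hrS, hr2, hr3⟩, hrΔ⟩ := hrS
  have hgood : W.IsGoodPrimeFor r := fun h =>
    hrΔ ⟨hr, Int.natCast_dvd.mp h, Int.natAbs_ne_zero.mpr hΔ⟩
  obtain ⟨ht, hd⟩ := LevelLowering.planeRep_frobenius hΔ (by norm_num) hr hr2 hgood hr3 hA hτ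
  have hdj : LinearMap.det (R.ρ τ) ^ j = -1 := by rw [← map_pow, hj, hσd]
  have hd' : LinearMap.det (R.ρ τ) = -1 := by
    have hunit : ∀ x : ZMod 3, x = 0 ∨ x = 1 ∨ x = -1 := zmod3_cases
    rcases hunit (LinearMap.det (R.ρ τ)) with h | h | h
    · rw [h] at hdj
      rcases eq_or_ne j 0 with rfl | hj0
      · rw [pow_zero] at hdj; exact absurd hdj zmod3_one_ne
      · rw [zero_pow hj0] at hdj; exact absurd hdj zmod3_zero_ne
    · rw [h, one_pow] at hdj; exact absurd hdj zmod3_one_ne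
    · exact h
  refine ⟨r, hr, hrS, hr2, ?_, hgood, fun hdiv => hσt ?_⟩
  · rw [hd'] at hd
    have e : (r % 3 : ℕ) = ((-1 : ZMod 3)).val := by rw [hd, ZMod.val_natCast]
    rw [e]; rfl
  · have ht0 : LinearMap.trace (ZMod 3) _ (R.ρ τ) = 0 := by
      rw [ht]; exact (ZMod.intCast_zmod_eq_zero_iff_dvd _ 3).mpr hdiv
    have hsq : R.ρ τ * R.ρ τ = 1 := by
      rw [end_mul_self_two R.finrank_eq, ht0, hd', zero_smul, neg_smul, one_smul, zero_sub,
        neg_neg]
    rw [← hj]
    rcases Nat.even_or_odd j with ⟨i, rfl⟩ | ⟨i, rfl⟩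
    · rw [← two_mul, pow_mul, hd', neg_one_sq, one_pow] at hdj
      exact absurd hdj zmod3_one_ne
    · rw [pow_succ, pow_mul, sq, hsq, one_pow, one_mul, ht0]

end FLTA.RT.LowerQ
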