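/-
An eigen system of level `L` occurs at every multiple of `L`.
-/
import Fermat.Agent.Hecke.EigenChar
import Fermat.Agent.Periods.IntegralStructure
import Fermat.Prelude.Thm_CuspForm_heckeTLin_comm
import Fermat.Prelude.Thm_CuspForm_heckeTLin_heckeULin_comm

set_option autoImplicit false

noncomputable section

namespace FLTA.RT.LowerQ

open ModularFormClass CongruenceSubgroup FLTA.Hecke

theorem gamma0_le {L L' : ℕ} (h : L ∣ L') : Gamma0 L' ≤ Gamma0 L := fun g hg => by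
  rw [Gamma0_mem] at hg ⊢
  have := congrArg (ZMod.castHom h (ZMod L)) hg
  rwa [map_intCast, map_zero] at this

/-- A cusp form of level `L` as a form of a multiple of `L`. -/
def inclForm {L L' : ℕ} [NeZero L] [NeZero L'] (h : L ∣ L') (f : CuspForm (Gamma0 L) 2) :
    CuspForm (Gamma0 L') 2 where
  toFun := ⇑f
  slash_action_eq' γ hγ :=
    SlashInvariantFormClass.slash_action_eq f γ (Subgroup.map_mono (gamma0_le h) hγ)
  holo' := CuspFormClass.holo f
  zero_at_cusps' {c} hc := f.zero_at_cusps'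
    ((Subgroup.IsArithmetic.isCusp_iff_isCusp_SL2Z _).mpr
      ((Subgroup.IsArithmetic.isCusp_iff_isCusp_SL2Z _).mp hc))

@[simp] theorem coe_inclForm {L L' : ℕ} [NeZero L] [NeZero L'] (h : L ∣ L')
    (f : CuspForm (Gamma0 L) 2) : ⇑(inclForm h f) = ⇑f := rfl

/-- The eigen system of a normalised eigenform occurs at every multiple of its level. -/
theorem exists_eigenform_of_dvd {L L' : ℕ} [NeZero L'] (h : L ∣ L')
    {f : CuspForm (Gamma0 L) 2} (hf : f.IsNormalizedEigenform) :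
    ∃ g : CuspForm (Gamma0 L') 2, g.IsNormalizedEigenform ∧
      ∀ ℓ : ℕ, ℓ.Prime → ¬ ℓ ∣ L' → qCoeff g ℓ = qCoeff f ℓ := by
  classical
  haveI : NeZero L := ⟨ne_zero_of_dvd_ne_zero (NeZero.ne L') h⟩
  haveI := finiteDimensional_of_integralStructure (FLTA.Periods.hasIntegralStructure_two L')
  let A : Set (Module.End ℂ (CuspForm (Gamma0 L') 2)) :=
    (CuspForm.heckeAlgebra L' 2 (∅ : Set ℕ) : Set _)
  have hcomm : ∀ s ∈ A, ∀ t ∈ A, Commute s t := fun s hs t ht =>
    congrArg Subtype.val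
      (mul_comm (⟨s, hs⟩ : CuspForm.heckeAlgebra L' 2 (∅ : Set ℕ)) ⟨t, ht⟩)
  let W : Submodule ℂ (CuspForm (Gamma0 L') 2) := ⨅ ℓ : {ℓ : ℕ // ℓ.Prime ∧ ¬ ℓ ∣ L'},
    Module.End.eigenspace (CuspForm.heckeTLin 2 ℓ.2.1 ℓ.2.2) (qCoeff f ℓ.1)
  have hf' : inclForm h f ∈ W := by
    rw [Submodule.mem_iInf]
    intro ℓ
    rw [Module.End.mem_eigenspace_iff]
    refine DFunLike.coe_injective ?_
    have e := congrArg DFunLike.coe
      (heckeTLin_of_normalized hf ℓ.2.1 (fun hd => ℓ.2.2 (hd.trans h)))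
    exact e
  have hne : inclForm h f ≠ 0 := fun e => ne_zero_of_normalized hf
    (DFunLike.coe_injective (show ⇑f = ⇑(0 : CuspForm (Gamma0 L) 2) from by
      rw [← coe_inclForm h f, e]; rfl))
  obtain ⟨v, hvW, hv0, hv⟩ := exists_common_eigenvector A hcomm W
    (fun e => hne ((Submodule.eq_bot_iff _).mp e _ hf')) (fun t ht w hw => by
      rw [Submodule.mem_iInf] at hw ⊢
      intro ℓ
      have h1 := Module.End.mem_eigenspace_iff.mp (hw ℓ)
      rw [Module.End.mem_eigenspace_iff]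
      have h2 := hcomm t ht _ (CuspForm.heckeAlgebra.T ℓ.2.1 ℓ.2.2
        (Set.notMem_empty ℓ.1) : CuspForm.heckeAlgebra L' 2 (∅ : Set ℕ)).2
      rw [CuspForm.heckeAlgebra.coe_T] at h2
      rw [← Module.End.mul_apply, ← h2.eq, Module.End.mul_apply, h1, map_smul])
  obtain ⟨χ, hχ⟩ := exists_char_of_eigenvector hv0 fun t => hv t.1 t.2
  let c : ℕ → ℂ := fun p =>
    if hp : p.Prime then
      if hpN : p ∣ L' then χ (CuspForm.heckeAlgebra.U hp hpN (Set.notMem_empty p))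
      else χ (CuspForm.heckeAlgebra.T hp hpN (Set.notMem_empty p))
    else 0
  obtain ⟨a, -, hg, hc⟩ := exists_normalized_of_eigenvector hv0 (c := c)
    (fun p hp hpN => by
      simp only [c, dif_pos hp, dif_neg hpN]
      rw [← hχ, CuspForm.heckeAlgebra.coe_T])
    (fun p hp hpN => by
      simp only [c, dif_pos hp, dif_pos hpN]
      rw [← hχ, CuspForm.heckeAlgebra.coe_U])
  refine ⟨_, hg, fun ℓ hℓ hℓN => ?_⟩
  rw [hc ℓ hℓ]
  simp only [c, dif_pos hℓ, dif_neg hℓN]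
  refine smul_left_injective ℂ hv0 ?_
  have h1 := Module.End.mem_eigenspace_iff.mp ((Submodule.mem_iInf _).mp hvW ⟨ℓ, hℓ, hℓN⟩)
  show χ _ • v = qCoeff f ℓ • v
  rw [← hχ, CuspForm.heckeAlgebra.coe_T]
  exact h1

end FLTA.RT.LowerQ
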