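/-
Congruent systems at almost all primes give residual modularity of every multiple of the level.
-/
import Fermat.Agent.RT.LowerQ.Raise
import Fermat.Agent.RT.Main.System
import Fermat.Agent.Carayol.MatchResidual
import Fermat.Agent.GaloisReps.ResidualAttach
import Fermat.Agent.EllTorsion.FrobTwo
import Fermat.Prelude.Def_FLTPrelim_ModularRep

set_option autoImplicit false

noncomputable section

namespace FLTA.RT.LowerQ

open Polynomial ModularFormClass WeierstrassCurve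

variable {W : WeierstrassCurve ℤ} {p : ℕ} [Fact p.Prime]

/-- The quadratic relation of Frobenius at every good prime. -/
theorem hasFrobQuadratic (hΔ : W.Δ ≠ 0) (hp2 : p ≠ 2) : Carayol.HasFrobQuadratic W p := by
  intro ℓ hℓ hgood hne A hA σ hσ n P hP
  exact EllTorsion.frobenius_quadratic_all W hΔ hℓ hgood hA hσ
    (((Fact.out : p.Prime).odd_of_ne_two hp2).pow)
    (fun h => hne ((Nat.prime_dvd_prime_iff_eq hℓ Fact.out).mp (hℓ.dvd_of_dvd_pow h))) P hP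

/-- Residual modularity gives a congruent system. -/
theorem hasSystem_of_residual (hΔ : W.Δ ≠ 0) {M : ℕ} (hM : M ≠ 0)
    (h : W.IsResiduallyModularOfLevel p M) : RT.HasSystem W p M := by
  obtain ⟨f, 𝔪, hf, h𝔪, hp, hcong⟩ := h
  obtain ⟨φ, hφ⟩ := RT.exists_ringHom_of_isMaximal h𝔪 hp
  refine ⟨f, hf, φ, W.Δ.natAbs.primeFactors ∪ M.primeFactors ∪ {p}, fun ℓ hℓ hℓT => ?_⟩
  simp only [Finset.mem_union, Nat.mem_primeFactors, Finset.mem_singleton, not_or] at hℓT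
  obtain ⟨⟨h1, h2⟩, h3⟩ := hℓT
  obtain ⟨a, ha, ha'⟩ := hcong ℓ hℓ
    (fun hd => h1 ⟨hℓ, Int.natCast_dvd.mp hd, Int.natAbs_ne_zero.mpr hΔ⟩)
    (fun hd => h2 ⟨hℓ, hd, hM⟩) h3
  refine ⟨a, ha, ?_⟩
  rw [← hφ, RingHom.mem_ker, map_sub, sub_eq_zero, map_intCast] at ha'
  exact ha'

/-- An eigenform congruent to `W` at almost all primes is congruent at every good prime outside
`p` and the level. -/
theorem congruent_at_good (hΔ : W.Δ ≠ 0) (hp2 : p ≠ 2) {L : ℕ} [NeZero L]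
    {f : CuspForm (CongruenceSubgroup.Gamma0 L) 2} (hf : f.IsNormalizedEigenform)
    {φ : integralClosure ℤ ℂ →+* Fbar p} {T : Finset ℕ}
    (hT : ∀ ℓ : ℕ, ℓ.Prime → ℓ ∉ T →
      ∃ a : integralClosure ℤ ℂ, (a : ℂ) = qCoeff f ℓ ∧ φ a = (W.apOfModel ℓ : Fbar p))
    {ℓ : ℕ} (hℓ : ℓ.Prime) (hgood : W.IsGoodPrimeFor ℓ) (hℓL : ¬ ℓ ∣ L) (hℓp : ℓ ≠ p) :
    ∃ a : integralClosure ℤ ℂ, (a : ℂ) = qCoeff f ℓ ∧ φ a = (W.apOfModel ℓ : Fbar p) := by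
  classical
  obtain ⟨ρ, hρ, -⟩ := GaloisReps.exists_residual_attached hf φ
  let S : Finset ℕ := T ∪ L.primeFactors ∪ W.Δ.natAbs.primeFactors ∪ {p}
  have hne : ∀ r : ℕ, r.Prime → r ≠ p → (r : Fbar p) ≠ 0 := fun r hr hrp h =>
    hrp ((Nat.prime_dvd_prime_iff_eq Fact.out hr).mp ((CharP.cast_eq_zero_iff _ p r).mp h)).symm
  have hbadS : ∀ r : ℕ, r.Prime → r ∉ S → W.IsGoodPrimeFor r := fun r hr hrS hd =>
    hrS (by simp [S, Nat.mem_primeFactors, hr, Int.natCast_dvd.mp hd, hΔ])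
  have hr : ∀ r : ℕ, r.Prime → r ∉ S → ∀ A : ValuationSubring (AlgebraicClosure ℚ),
      A.LiesOverPrime r → ∀ σ, A.IsFrobeniusAt σ r →
        (ρ.ρ σ).charpoly = X ^ 2 - C (W.apOfModel r : Fbar p) * X + C (r : Fbar p) := by
    intro r hr hrS A hA σ hσ
    simp only [S, Finset.mem_union, Nat.mem_primeFactors, Finset.mem_singleton, not_or] at hrS
    obtain ⟨⟨⟨h1, h2⟩, -⟩, h4⟩ := hrS
    obtain ⟨a, ha, hcp⟩ := hρ r hr (fun hd => h2 ⟨hr, hd, NeZero.ne L⟩) (hne r hr h4) A hA σ hσ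
    obtain ⟨a', ha', hφ⟩ := hT r hr h1
    rw [hcp, show a = a' from Subtype.ext (ha.trans ha'.symm), hφ]
  obtain ⟨A, hA⟩ := Galois.exists_liesOverPrime hℓ
  obtain ⟨σ, hσ⟩ := Galois.exists_isFrobeniusAt hℓ hA
  have hF := hasFrobQuadratic hΔ hp2
  obtain ⟨a, ha, hcp⟩ := hρ ℓ hℓ hℓL (hne ℓ hℓ hℓp) A hA σ hσ
  refine ⟨a, ha, ?_⟩
  have e := Carayol.charpoly_eq_curveRepK hΔ hF S (by simp [S]) hbadS ρ hr σ
  rw [hcp, Carayol.charpoly_curveRepK_frobenius hΔ hF hℓ hgood hℓp hA hσ] at e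
  simpa [coeff_X, coeff_C] using congrArg (fun P : (Fbar p)[X] => P.coeff 1) e

/-- A congruent system of level `L` gives residual modularity at every multiple of `L`. -/
theorem residual_of_hasSystem (hΔ : W.Δ ≠ 0) (hp2 : p ≠ 2) {L L' : ℕ} [NeZero L'] (h : L ∣ L')
    (hs : RT.HasSystem W p L) : W.IsResiduallyModularOfLevel p L' := by
  classical
  obtain ⟨f, hf, φ, T, hT⟩ := hs
  obtain ⟨g, hg, hgf⟩ := exists_eigenform_of_dvd h hf
  have hT' : ∀ ℓ : ℕ, ℓ.Prime → ℓ ∉ T ∪ L'.primeFactors →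
      ∃ a : integralClosure ℤ ℂ, (a : ℂ) = qCoeff g ℓ ∧ φ a = (W.apOfModel ℓ : Fbar p) := by
    intro ℓ hℓ hℓT
    simp only [Finset.mem_union, Nat.mem_primeFactors, not_or] at hℓT
    obtain ⟨a, ha, ha'⟩ := hT ℓ hℓ hℓT.1
    exact ⟨a, ha.trans (hgf ℓ hℓ fun hd => hℓT.2 ⟨hℓ, hd, NeZero.ne L'⟩).symm, ha'⟩
  obtain ⟨h𝔪, hpm⟩ := RT.isMaximal_ker φ
  refine ⟨g, RingHom.ker φ, hg, h𝔪, hpm, fun ℓ hℓ hgood hℓL hℓp => ?_⟩
  obtain ⟨a, ha, ha'⟩ := congruent_at_good hΔ hp2 hg hT' hℓ hgood hℓL hℓp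
  exact ⟨a, ha, by rw [RingHom.mem_ker, map_sub, map_intCast, ha', sub_self]⟩

end FLTA.RT.LowerQ
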